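import Mathlib

/-!
# P4: complex numbers fixed by every ring automorphism of `ℂ` are rational

Part of the Galois-descent route to S23 (integral structure on cusp forms).
-/

set_option autoImplicit false

namespace Fermat.Agent.S23.H78

open MvPolynomial

/-- Extend a ring automorphism `e` of the polynomial ring on a transcendence basis to an
automorphism of the algebraically closed field. -/
theorem exists_ringEquiv_extending {R K ι : Type*} [CommRing R] [IsDomain R] [Field K]
    [Algebra R K] [IsAlgClosed K]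
    (v : ι → K) (hv : IsTranscendenceBasis R v)
    (e : MvPolynomial ι R ≃+* MvPolynomial ι R) :
    ∃ σ : K ≃+* K, ∀ p : MvPolynomial ι R, σ (aeval v p) = aeval v (e p) := by
  let _ := IsAlgClosed.isAlgClosure_of_transcendence_basis v hv
  let e' : Algebra.adjoin R (Set.range v) ≃+* Algebra.adjoin R (Set.range v) :=
    hv.1.aevalEquiv.symm.toRingEquiv.trans (e.trans hv.1.aevalEquiv.toRingEquiv)
  refine ⟨IsAlgClosure.equivOfEquiv K K e', fun p => ?_⟩
  have h1 : aeval v p = algebraMap (Algebra.adjoin R (Set.range v)) K (hv.1.aevalEquiv p) :=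
    (hv.1.algebraMap_aevalEquiv p).symm
  rw [h1, IsAlgClosure.equivOfEquiv_algebraMap]
  have h2 : e' (hv.1.aevalEquiv p) = hv.1.aevalEquiv (e p) := by
    simp [e']
  rw [h2, hv.1.algebraMap_aevalEquiv]

/-- The automorphism of a polynomial ring translating one variable by `1`. -/
noncomputable def shiftEquiv (ι : Type*) [DecidableEq ι] (R : Type*) [CommRing R] (i₀ : ι) :
    MvPolynomial ι R ≃ₐ[R] MvPolynomial ι R :=
  AlgEquiv.ofAlgHom
    (aeval fun i => if i = i₀ then X i + 1 else X i)
    (aeval fun i => if i = i₀ then X i - 1 else X i)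
    (by
      ext i
      by_cases h : i = i₀ <;> simp [h])
    (by
      ext i
      by_cases h : i = i₀ <;> simp [h])

theorem shiftEquiv_X (ι : Type*) [DecidableEq ι] (R : Type*) [CommRing R] (i₀ : ι) :
    shiftEquiv ι R i₀ (X i₀) = X i₀ + 1 := by
  simp [shiftEquiv]

/-- Transcendental case. -/
theorem exists_ringEquiv_ne_of_transcendental {K : Type*} [Field K] [IsAlgClosed K]
    [CharZero K] {x : K} (hx : Transcendental ℚ x) : ∃ σ : K ≃+* K, σ x ≠ x := by
  classical
  have hind : AlgebraicIndepOn ℚ id ({x} : Set K) := by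
    show AlgebraicIndependent ℚ fun i : ({x} : Set K) => id (i : K)
    rw [algebraicIndependent_singleton_iff (⟨x, rfl⟩ : ({x} : Set K))]
    exact hx
  obtain ⟨t, hxt, ht⟩ := exists_isTranscendenceBasis_superset hind
  let i₀ : t := ⟨x, hxt rfl⟩
  obtain ⟨σ, hσ⟩ := exists_ringEquiv_extending (Subtype.val : t → K) ht
    (shiftEquiv t ℚ i₀).toRingEquiv
  refine ⟨σ, ?_⟩
  have h := hσ (X i₀)
  simp only [aeval_X] at h
  have h' : σ x = x + 1 := by
    have : ((shiftEquiv t ℚ i₀).toRingEquiv (X i₀) : MvPolynomial t ℚ) = X i₀ + 1 :=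
      shiftEquiv_X t ℚ i₀
    rw [this] at h
    simpa [i₀] using h
  rw [h']
  simp

/-- Algebraic case. -/
theorem exists_ringEquiv_ne_of_isAlgebraic {K : Type*} [Field K] [IsAlgClosed K]
    [CharZero K] {x : K} (hx : IsAlgebraic ℚ x) (hx' : x ∉ Set.range (algebraMap ℚ K)) :
    ∃ σ : K ≃+* K, σ x ≠ x := by
  classical
  let alg : Algebra ℚ (algebraicClosure ℚ K) :=
    IntermediateField.algebra' (algebraicClosure ℚ K)
  have : IsAlgClosure ℚ (algebraicClosure ℚ K) := algebraicClosure.isAlgClosure ℚ K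
  have : IsGalois ℚ (algebraicClosure ℚ K) := IsAlgClosure.isGalois ℚ _
  have hxQ : x ∈ algebraicClosure ℚ K := (mem_algebraicClosure_iff).mpr hx.isIntegral.isAlgebraic
  have hy : (⟨x, hxQ⟩ : algebraicClosure ℚ K) ∉
      Set.range (algebraMap ℚ (algebraicClosure ℚ K)) := by
    rintro ⟨r, hr⟩
    exact hx' ⟨r, congrArg (Subtype.val) hr⟩
  rw [InfiniteGalois.mem_range_algebraMap_iff_fixed] at hy
  obtain ⟨τ, hτ⟩ := not_forall.mp hy
  obtain ⟨ι, v, hv⟩ := exists_isTranscendenceBasis' (algebraicClosure ℚ K) K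
  obtain ⟨σ, hσ⟩ := exists_ringEquiv_extending v hv (MvPolynomial.mapEquiv ι τ.toRingEquiv)
  refine ⟨σ, ?_⟩
  have h := hσ (C (⟨x, hxQ⟩ : algebraicClosure ℚ K))
  have h1 : (MvPolynomial.mapEquiv ι τ.toRingEquiv) (C (⟨x, hxQ⟩ : algebraicClosure ℚ K)) =
      C (τ ⟨x, hxQ⟩) := by
    simp
  rw [h1] at h
  simp only [aeval_C] at h
  have h2 : algebraMap (algebraicClosure ℚ K) K ⟨x, hxQ⟩ = x := rfl
  rw [h2] at h
  rw [h]
  intro hcontra
  exact hτ (Subtype.ext hcontra)

/-- **P4**: a complex number (more generally an element of an algebraically closed field of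
characteristic zero) that is not rational is moved by some ring automorphism. -/
theorem exists_ringEquiv_ne {K : Type*} [Field K] [IsAlgClosed K] [CharZero K] {x : K}
    (hx : x ∉ Set.range (algebraMap ℚ K)) : ∃ σ : K ≃+* K, σ x ≠ x := by
  by_cases h : IsAlgebraic ℚ x
  · exact exists_ringEquiv_ne_of_isAlgebraic h hx
  · exact exists_ringEquiv_ne_of_transcendental h

/-- An element fixed by all ring automorphisms is rational. -/
theorem exists_rat_of_forall_ringEquiv_eq {K : Type*} [Field K] [IsAlgClosed K] [CharZero K]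
    {x : K} (hx : ∀ σ : K ≃+* K, σ x = x) : ∃ r : ℚ, (r : K) = x := by
  by_contra hcon
  have : x ∉ Set.range (algebraMap ℚ K) := by
    rintro ⟨r, hr⟩
    exact hcon ⟨r, by simpa using hr⟩
  obtain ⟨σ, hσ⟩ := exists_ringEquiv_ne this
  exact hσ (hx σ)

/-- Complex version of `exists_rat_of_forall_ringEquiv_eq`. -/
theorem complex_exists_rat_of_forall_ringEquiv_eq {x : ℂ} (hx : ∀ σ : ℂ ≃+* ℂ, σ x = x) :
    ∃ r : ℚ, (r : ℂ) = x :=
  exists_rat_of_forall_ringEquiv_eq hx

end Fermat.Agent.S23.H78
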