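import Mathlib
import Fermat.Agent.S23.H78.AutComplex

/-!
# P5: a subspace of `ι → K` stable under all coordinatewise field automorphisms is spanned by
its rational points (`K` algebraically closed of characteristic zero, e.g. `ℂ`).
-/

set_option autoImplicit false

namespace Fermat.Agent.S23.H78

variable {K : Type*} [Field K]

/-- The rational points of a subspace of `ι → K`. -/
def ratPts {ι : Type*} (V : Submodule K (ι → K)) : Set (ι → K) :=
  {v | v ∈ V ∧ ∀ i, ∃ r : ℚ, (r : K) = v i}

theorem ratPts_subset {ι : Type*} (V : Submodule K (ι → K)) : ratPts V ⊆ V := fun _ hv => hv.1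

theorem ratPts_mono {ι : Type*} {V W : Submodule K (ι → K)} (h : V ≤ W) :
    ratPts V ⊆ ratPts W := fun _ hv => ⟨h hv.1, hv.2⟩

theorem span_ratPts_le {ι : Type*} (V : Submodule K (ι → K)) :
    Submodule.span K (ratPts V) ≤ V :=
  Submodule.span_le.mpr (ratPts_subset V)

variable [IsAlgClosed K] [CharZero K]

theorem le_span_ratPts_aux {ι : Type*} [Finite ι] (d : ℕ) :
    ∀ V : Submodule K (ι → K), Module.finrank K V = d →
      (∀ σ : K ≃+* K, ∀ v ∈ V, (fun i => σ (v i)) ∈ V) →
      V ≤ Submodule.span K (ratPts V) := by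
  classical
  have := Fintype.ofFinite ι
  induction d using Nat.strong_induction_on with
  | _ d ih =>
  intro V hd hV
  by_cases hbot : V = ⊥
  · rw [hbot]; exact bot_le
  -- pick a nonzero vector of minimal support
  let supp : (ι → K) → Finset ι := fun v => Finset.univ.filter fun i => v i ≠ 0
  have hex : ∃ m : ℕ, ∃ v ∈ V, v ≠ 0 ∧ (supp v).card = m := by
    obtain ⟨v, hv, hv0⟩ := (Submodule.ne_bot_iff V).mp hbot
    exact ⟨_, v, hv, hv0, rfl⟩
  obtain ⟨v₀, hv₀V, hv₀0, hv₀card⟩ := Nat.find_spec hex
  have hmin : ∀ v ∈ V, v ≠ 0 → (supp v₀).card ≤ (supp v).card := by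
    intro v hv hv0
    rw [hv₀card]
    exact Nat.find_min' hex ⟨v, hv, hv0, rfl⟩
  obtain ⟨j, hj⟩ : ∃ j, v₀ j ≠ 0 := by
    by_contra h
    push Not at h
    exact hv₀0 (funext h)
  set w : ι → K := (v₀ j)⁻¹ • v₀ with hw
  have hwV : w ∈ V := V.smul_mem _ hv₀V
  have hwj : w j = 1 := by simp [hw, hj]
  have hsuppw : supp w = supp v₀ := by
    ext i
    simp [supp, hw, hj]
  -- `w` is fixed by every automorphism
  have hfix : ∀ σ : K ≃+* K, ∀ i, σ (w i) = w i := by
    intro σ
    set u : ι → K := (fun i => σ (w i)) - w with hu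
    have huV : u ∈ V := V.sub_mem (hV σ w hwV) hwV
    have hu0 : u = 0 := by
      by_contra hne
      have h1 := hmin u huV hne
      have h2 : supp u ⊂ supp w := by
        refine (Finset.ssubset_iff_of_subset ?_).mpr ⟨j, ?_, ?_⟩
        · intro i hi
          simp only [supp, Finset.mem_filter, Finset.mem_univ, true_and] at hi ⊢
          intro hwi
          apply hi
          simp [hu, hwi]
        · simp [supp, hwj]
        · simp [supp, hu, hwj]
      have h3 := Finset.card_lt_card h2
      rw [hsuppw] at h3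
      omega
    intro i
    have := congrFun hu0 i
    simpa [hu, sub_eq_zero] using this
  have hwrat : w ∈ ratPts V :=
    ⟨hwV, fun i => exists_rat_of_forall_ringEquiv_eq fun σ => hfix σ i⟩
  -- the hyperplane section
  set V' : Submodule K (ι → K) := V ⊓ LinearMap.ker (LinearMap.proj (R := K) (φ := fun _ : ι => K) j)
    with hV'
  have hV'le : V' ≤ V := inf_le_left
  have hV'lt : V' < V := by
    refine lt_of_le_of_ne hV'le fun h => ?_
    have : w ∈ V' := h ▸ hwV
    have hw0 : w j = 0 := by
      have := this.2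
      simpa using this
    rw [hwj] at hw0
    exact one_ne_zero hw0
  have hfin : Module.finrank K V' < d := hd ▸ Submodule.finrank_lt_finrank_of_lt hV'lt
  have hV'stab : ∀ σ : K ≃+* K, ∀ v ∈ V', (fun i => σ (v i)) ∈ V' := by
    intro σ v hv
    refine ⟨hV σ v hv.1, ?_⟩
    have hvj : v j = 0 := by simpa using hv.2
    simp [hvj]
  have hih := ih _ hfin V' rfl hV'stab
  intro x hx
  have hdecomp : x = (x - x j • w) + x j • w := by abel
  rw [hdecomp]
  refine Submodule.add_mem _ ?_ (Submodule.smul_mem _ _ (Submodule.subset_span hwrat))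
  have hxV' : x - x j • w ∈ V' := by
    refine ⟨V.sub_mem hx (V.smul_mem _ hwV), ?_⟩
    simp [hwj]
  exact Submodule.span_mono (ratPts_mono hV'le) (hih hxV')

/-- **P5**: a subspace of `ι → K` (`ι` finite, `K` algebraically closed of characteristic `0`)
stable under all coordinatewise automorphisms of `K` is spanned by its rational points. -/
theorem span_ratPts_eq_of_stable {ι : Type*} [Finite ι] (V : Submodule K (ι → K))
    (hV : ∀ σ : K ≃+* K, ∀ v ∈ V, (fun i => σ (v i)) ∈ V) :
    Submodule.span K (ratPts V) = V :=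
  le_antisymm (span_ratPts_le V) (le_span_ratPts_aux _ V rfl hV)

/-- `ℂ`, `Fin n` version in unfolded form. -/
theorem span_rational_of_stable {n : ℕ} (V : Submodule ℂ (Fin n → ℂ))
    (hV : ∀ σ : ℂ ≃+* ℂ, ∀ v ∈ V, (fun i => σ (v i)) ∈ V) :
    Submodule.span ℂ {v : Fin n → ℂ | v ∈ V ∧ ∀ i, ∃ r : ℚ, (r : ℂ) = v i} = V :=
  span_ratPts_eq_of_stable V hV

end Fermat.Agent.S23.H78
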